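import Mathlib
import Fermat.Agent.LT.H556.A0
import Fermat.Agent.LT.T5.Spec

/-!
# Row LT, tower T5, leaf T5.03 (helper372): `LeafHS0 𝔫 τ → LeafHS s 𝔫 τ`

OFF-MAIN.  Spec = `LT/T5/Spec.lean` v3 FREEZE of helper32 (origin/helper32@c970d419b, sha256
d6f8b00ae5f1, byte-identical copy),
vocabulary `LT/H556/A0.lean` (byte-identical copy).

The twisted kernel is the untwisted kernel composed with `σ` in the second variable,
`K^σ_φ(x, y) = K_φ(x, σ y)`, and `K_φ` is left `GL₂(K)`-invariant in the second variable.  For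
`y ∈ F` let `γ(y) ∈ GL₂(K)` be the unique element with `γ(y) σ(y) ∈ F` (strictness of `F`, `σ`
preserves the slab).  The map `τ(y) = γ(y) σ(y)` is Borel, maps `F` to `F` and preserves
`μ|_F`; hence `K^σ_φ = K_φ ∘ (id × τ)` is in `L²(F × F)` as soon as `K_φ` is.

No input from T1 is needed: only `IsFrame` and `AutPreserves` (hypotheses of the leaf).
-/

set_option autoImplicit false

open IsDedekindDomain NumberField MeasureTheory
open scoped MatrixGroups ComplexConjugate

noncomputable section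

namespace Fermat.Agent.LT.T5.H372

open Fermat.Agent.LT.H556.A0 Fermat.Agent.LT.T5

variable {K : Type} [Field K] [NumberField K]

attribute [local instance] Fermat.Agent.LT.T5.instMeasurableSpaceG

/-- `GL₂(𝔸_K)` with its Borel σ-algebra is a Borel space (local instance of this file). -/
local instance instBorelSpaceG372 : BorelSpace (G K) := ⟨rfl⟩

/-! ## 1. Countability of `GL₂(K)` -/

theorem countable_field372 (K : Type) [Field K] [NumberField K] : Countable K := by
  have e : K ≃ (Fin (Module.finrank ℚ K) → ℚ) := (Module.finBasis ℚ K).equivFun.toEquiv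
  exact e.injective.countable

theorem countable_GL372 (K : Type) [Field K] [NumberField K] : Countable (GL (Fin 2) K) := by
  have := countable_field372 K
  have h : Function.Injective
      (fun (g : GL (Fin 2) K) (i j : Fin 2) => (g : Matrix (Fin 2) (Fin 2) K) i j) := by
    intro a b hab
    apply Units.ext
    ext i j
    exact congrFun (congrFun hab i) j
  exact h.countable

/-! ## 2. The inverse of `σ` on `GL₂(K)` -/

/-- `σ⁻¹` on `GL₂(K)`. -/
def onRatInv372 (s : AdelicAut K) : GL (Fin 2) K →* GL (Fin 2) K :=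
  Matrix.GeneralLinearGroup.map (s.σ.symm : K →+* K)

theorem onRat_onRatInv372 (s : AdelicAut K) (δ : GL (Fin 2) K) :
    s.onRat (onRatInv372 s δ) = δ := by
  apply Units.ext
  ext i j
  simp [AdelicAut.onRat, onRatInv372, Matrix.GeneralLinearGroup.map_apply]

theorem onRatInv_onRat372 (s : AdelicAut K) (δ : GL (Fin 2) K) :
    onRatInv372 s (s.onRat δ) = δ := by
  apply Units.ext
  ext i j
  simp [AdelicAut.onRat, onRatInv372, Matrix.GeneralLinearGroup.map_apply]

variable {s : AdelicAut K} {𝔫 : Ideal (𝓞 K)} {μ : Measure (G K)} {F : Set (G K)} {r : G K}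

theorem onGinv_ratG372 (hP : AutPreserves s 𝔫 μ r) (δ : GL (Fin 2) K) :
    s.onGinv (ratG δ) = ratG (onRatInv372 s δ) := by
  have h := hP.rat (onRatInv372 s δ)
  rw [onRat_onRatInv372] at h
  rw [← h, hP.left_inverse]

/-! ## 3. Invariance of the untwisted kernel -/

theorem ker0_ratG_mul372 (r : G K) (φ : G K → ℂ) (x y : G K) (γ' : GL (Fin 2) K) :
    ker0 r φ x (ratG γ' * y) = ker0 r φ x y := by
  unfold ker0
  have h := (Equiv.mulRight γ').tsum_eq (fun γ : GL (Fin 2) K => flat r φ (x⁻¹ * ratG γ * y))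
  rw [← h]
  refine tsum_congr fun γ => ?_
  simp [mul_assoc]

theorem twKer_eq_ker0_372 (r : G K) (s : AdelicAut K) (φ : G K → ℂ) (x y : G K) :
    twKer r s φ x y = ker0 r φ x (s.onG y) := rfl

/-! ## 4. The map `τ` -/

open Classical in
/-- The rational element moving `σ(y)` into `F` (for `y ∈ F`); `1` outside `F`. -/
def gam372 (s : AdelicAut K) (F : Set (G K)) (y : G K) : GL (Fin 2) K :=
  if h : ∃ γ : GL (Fin 2) K, y ∈ F ∧ ratG γ * s.onG y ∈ F then h.choose else 1

/-- `τ(y) = γ(y) σ(y)`. -/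
def tau372 (s : AdelicAut K) (F : Set (G K)) (y : G K) : G K :=
  ratG (gam372 s F y) * s.onG y

theorem twKer_eq_tau372 (r : G K) (s : AdelicAut K) (F : Set (G K)) (φ : G K → ℂ) (x y : G K) :
    twKer r s φ x y = ker0 r φ x (tau372 s F y) := by
  rw [tau372, ker0_ratG_mul372, twKer_eq_ker0_372]

theorem gam_of_not_mem372 {y : G K} (hy : y ∉ F) : gam372 s F y = 1 := by
  unfold gam372
  rw [dif_neg]
  rintro ⟨γ, h, -⟩
  exact hy h

theorem exists_gam372 (hF : IsFrame μ F) (hP : AutPreserves s 𝔫 μ r) {y : G K} (hy : y ∈ F) :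
    ∃ γ : GL (Fin 2) K, y ∈ F ∧ ratG γ * s.onG y ∈ F := by
  obtain ⟨γ, hγ, -⟩ := hF.strict (s.onG y) ((hP.slab y).1 (hF.sub hy))
  exact ⟨γ, hy, hγ⟩

theorem gam_spec372 (hF : IsFrame μ F) (hP : AutPreserves s 𝔫 μ r) {y : G K} (hy : y ∈ F) :
    ratG (gam372 s F y) * s.onG y ∈ F := by
  have h := exists_gam372 hF hP hy
  unfold gam372
  rw [dif_pos h]
  exact h.choose_spec.2

theorem gam_eq_iff372 (hF : IsFrame μ F) (hP : AutPreserves s 𝔫 μ r) {y : G K} (hy : y ∈ F)
    (γ : GL (Fin 2) K) : gam372 s F y = γ ↔ ratG γ * s.onG y ∈ F := by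
  constructor
  · rintro rfl
    exact gam_spec372 hF hP hy
  · intro h
    obtain ⟨γ₀, -, huniq⟩ := hF.strict (s.onG y) ((hP.slab y).1 (hF.sub hy))
    rw [huniq γ h, huniq _ (gam_spec372 hF hP hy)]

theorem measurable_shift372 (hP : AutPreserves s 𝔫 μ r) (γ : GL (Fin 2) K) :
    Measurable (fun y : G K => ratG γ * s.onG y) :=
  (continuous_const.mul hP.cont).measurable

theorem measurableSet_gam_fiber372 (hF : IsFrame μ F) (hP : AutPreserves s 𝔫 μ r)
    (γ : GL (Fin 2) K) : MeasurableSet {y : G K | gam372 s F y = γ} := by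
  have h : {y : G K | gam372 s F y = γ}
      = (F ∩ (fun y : G K => ratG γ * s.onG y) ⁻¹' F) ∪ (Fᶜ ∩ {_y : G K | (1 : GL (Fin 2) K) = γ}) := by
    ext y
    by_cases hy : y ∈ F
    · simp [hy, gam_eq_iff372 hF hP hy]
    · simp [hy, gam_of_not_mem372 hy]
  rw [h]
  exact (hF.meas.inter (measurable_shift372 hP γ hF.meas)).union
    (hF.meas.compl.inter (MeasurableSet.const _))

theorem measurable_tau372 (hF : IsFrame μ F) (hP : AutPreserves s 𝔫 μ r) :
    Measurable (tau372 s F) := by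
  have := countable_GL372 K
  intro A hA
  have h : tau372 s F ⁻¹' A = ⋃ γ : GL (Fin 2) K,
      ({y : G K | gam372 s F y = γ} ∩ (fun y : G K => ratG γ * s.onG y) ⁻¹' A) := by
    ext y
    simp only [Set.mem_preimage, Set.mem_iUnion, Set.mem_inter_iff, Set.mem_ofPred_eq, tau372]
    constructor
    · intro h
      exact ⟨gam372 s F y, rfl, h⟩
    · rintro ⟨γ, rfl, h⟩
      exact h
  rw [h]
  exact MeasurableSet.iUnion fun γ =>
    (measurableSet_gam_fiber372 hF hP γ).inter (measurable_shift372 hP γ hA)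

/-! ## 5. `τ` preserves `μ|_F` -/

theorem measure_preimage_shift372 (hF : IsFrame μ F) (hP : AutPreserves s 𝔫 μ r)
    (γ : GL (Fin 2) K) {B : Set (G K)} (hB : MeasurableSet B) :
    μ ((fun y : G K => ratG γ * s.onG y) ⁻¹' B) = μ B := by
  have := hF.haar
  have h1 : (fun y : G K => ratG γ * s.onG y) ⁻¹' B
      = s.onG ⁻¹' ((fun h : G K => ratG γ * h) ⁻¹' B) := rfl
  rw [h1, hP.measure _ (measurable_const_mul (ratG γ) hB), measure_preimage_mul]

/-- The piece of `F ∩ A` reached from `F` through `γ σ`. -/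
def pieceQ372 (s : AdelicAut K) (F : Set (G K)) (A : Set (G K)) (γ : GL (Fin 2) K) : Set (G K) :=
  (F ∩ A) ∩ (fun z : G K => s.onGinv ((ratG γ)⁻¹ * z)) ⁻¹' F

theorem preimage_pieceQ372 (hP : AutPreserves s 𝔫 μ r) (A : Set (G K)) (γ : GL (Fin 2) K) :
    (fun y : G K => ratG γ * s.onG y) ⁻¹' (pieceQ372 s F A γ)
      = F ∩ (fun y : G K => ratG γ * s.onG y) ⁻¹' (F ∩ A) := by
  ext y
  simp only [pieceQ372, Set.mem_preimage, Set.mem_inter_iff, inv_mul_cancel_left,
    hP.left_inverse]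
  tauto

theorem continuous_onGinv372 (s : AdelicAut K) : Continuous (s.onGinv : G K → G K) := by
  have h : Continuous ((RingHom.mapMatrix (s.σA.symm : Adl K →+* Adl K)).toMonoidHom :
      Matrix (Fin 2) (Fin 2) (Adl K) → Matrix (Fin 2) (Fin 2) (Adl K)) :=
    Continuous.matrix_map continuous_id s.continuous_symm
  exact Continuous.units_map _ h

theorem measurableSet_pieceQ372 (hF : IsFrame μ F) {A : Set (G K)} (hA : MeasurableSet A)
    (γ : GL (Fin 2) K) : MeasurableSet (pieceQ372 s F A γ) :=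
  (hF.meas.inter hA).inter
    (((continuous_onGinv372 s).comp (continuous_const.mul continuous_id)).measurable hF.meas)

theorem mem_slab_onGinv372 (hF : IsFrame μ F) (hP : AutPreserves s 𝔫 μ r) {z : G K}
    (hz : z ∈ F) : s.onGinv z ∈ slab K := by
  rw [hP.slab, hP.right_inverse]
  exact hF.sub hz

theorem iUnion_pieceQ372 (hF : IsFrame μ F) (hP : AutPreserves s 𝔫 μ r) (A : Set (G K)) :
    ⋃ γ : GL (Fin 2) K, pieceQ372 s F A γ = F ∩ A := by
  ext z
  simp only [Set.mem_iUnion, pieceQ372, Set.mem_inter_iff, Set.mem_preimage]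
  constructor
  · rintro ⟨γ, h, -⟩
    exact h
  · intro h
    obtain ⟨γ₀, hγ₀, -⟩ := hF.strict (s.onGinv z) (mem_slab_onGinv372 hF hP h.1)
    refine ⟨s.onRat γ₀⁻¹, h, ?_⟩
    have e : s.onGinv ((ratG (s.onRat γ₀⁻¹))⁻¹ * z) = ratG γ₀ * s.onGinv z := by
      rw [map_mul, map_inv, ← hP.rat, hP.left_inverse, map_inv, inv_inv]
    rw [e]
    exact hγ₀

theorem pairwise_disjoint_pieceQ372 (hF : IsFrame μ F) (hP : AutPreserves s 𝔫 μ r)
    (A : Set (G K)) : Pairwise (Function.onFun Disjoint (pieceQ372 s F A)) := by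
  intro γ γ' hne
  rw [Function.onFun, Set.disjoint_left]
  rintro z ⟨hz, h1⟩ ⟨-, h2⟩
  apply hne
  simp only [Set.mem_preimage] at h1 h2
  rw [map_mul, map_inv, onGinv_ratG372 hP, ← map_inv] at h1 h2
  obtain ⟨γ₀, -, huniq⟩ := hF.strict (s.onGinv z) (mem_slab_onGinv372 hF hP hz.1)
  have e := (huniq _ h1).trans (huniq _ h2).symm
  have e' := congrArg s.onRat e
  rw [map_inv, map_inv, onRat_onRatInv372, onRat_onRatInv372] at e'
  exact inv_injective e'

/-- The piece of `F` mapped by `γ σ` into `F ∩ A`. -/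
def pieceP372 (s : AdelicAut K) (F : Set (G K)) (A : Set (G K)) (γ : GL (Fin 2) K) : Set (G K) :=
  F ∩ (fun y : G K => ratG γ * s.onG y) ⁻¹' (F ∩ A)

theorem measurableSet_pieceP372 (hF : IsFrame μ F) (hP : AutPreserves s 𝔫 μ r) {A : Set (G K)}
    (hA : MeasurableSet A) (γ : GL (Fin 2) K) : MeasurableSet (pieceP372 s F A γ) :=
  hF.meas.inter (measurable_shift372 hP γ (hF.meas.inter hA))

theorem pairwise_disjoint_pieceP372 (hF : IsFrame μ F) (hP : AutPreserves s 𝔫 μ r)
    (A : Set (G K)) : Pairwise (Function.onFun Disjoint (pieceP372 s F A)) := by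
  intro γ γ' hne
  rw [Function.onFun, Set.disjoint_left]
  rintro y ⟨hy, h1⟩ ⟨-, h2⟩
  apply hne
  rw [← (gam_eq_iff372 hF hP hy γ).2 h1.1, ← (gam_eq_iff372 hF hP hy γ').2 h2.1]

theorem preimage_tau_inter372 (hF : IsFrame μ F) (hP : AutPreserves s 𝔫 μ r) (A : Set (G K)) :
    tau372 s F ⁻¹' A ∩ F = ⋃ γ : GL (Fin 2) K, pieceP372 s F A γ := by
  ext y
  simp only [Set.mem_iUnion, pieceP372, Set.mem_inter_iff, Set.mem_preimage, tau372]
  constructor
  · rintro ⟨h, hy⟩
    exact ⟨gam372 s F y, hy, gam_spec372 hF hP hy, h⟩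
  · rintro ⟨γ, hy, h1, h2⟩
    rw [(gam_eq_iff372 hF hP hy γ).2 h1]
    exact ⟨h2, hy⟩

theorem measure_pieceP372 (hF : IsFrame μ F) (hP : AutPreserves s 𝔫 μ r) {A : Set (G K)}
    (hA : MeasurableSet A) (γ : GL (Fin 2) K) :
    μ (pieceP372 s F A γ) = μ (pieceQ372 s F A γ) := by
  rw [pieceP372, ← preimage_pieceQ372 hP A γ,
    measure_preimage_shift372 hF hP γ (measurableSet_pieceQ372 hF hA γ)]

theorem measurePreserving_tau372 (hF : IsFrame μ F) (hP : AutPreserves s 𝔫 μ r) :
    MeasurePreserving (tau372 s F) (μ.restrict F) (μ.restrict F) := by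
  have := countable_GL372 K
  refine ⟨measurable_tau372 hF hP, Measure.ext fun A hA => ?_⟩
  rw [Measure.map_apply (measurable_tau372 hF hP) hA,
    Measure.restrict_apply (measurable_tau372 hF hP hA), Measure.restrict_apply hA,
    preimage_tau_inter372 hF hP A,
    measure_iUnion (pairwise_disjoint_pieceP372 hF hP A)
      (fun γ => measurableSet_pieceP372 hF hP hA γ),
    Set.inter_comm A F, ← iUnion_pieceQ372 hF hP A,
    measure_iUnion (pairwise_disjoint_pieceQ372 hF hP A)
      (fun γ => measurableSet_pieceQ372 hF hA γ)]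
  exact tsum_congr fun γ => measure_pieceP372 hF hP hA γ

/-! ## 6. The leaf -/

/-- **T5.03** (`LeafHS`) from T5.02 (`LeafHS0`): the twisted kernel is Hilbert–Schmidt as soon as
the untwisted kernel is. -/
theorem leafHS_of372 (s : AdelicAut K) (𝔫 : Ideal (𝓞 K)) (τ : G K → ℂ) (h0 : LeafHS0 𝔫 τ) :
    LeafHS s 𝔫 τ := by
  intro μ F r hF hr hP φ t ek ek'
  have h := h0 μ F r hF hr φ t ek ek'
  have : IsFiniteMeasure (μ.restrict F) :=
    ⟨by rw [Measure.restrict_apply_univ]; exact hF.finite⟩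
  have hτ := measurePreserving_tau372 hF hP
  have hprod := (MeasurePreserving.id (μ.restrict F)).prod hτ
  have h2 := h.comp_measurePreserving hprod
  have e : (fun p : G K × G K => twKer r s φ p.1 p.2)
      = (fun p : G K × G K => ker0 r φ p.1 p.2) ∘ Prod.map id (tau372 s F) := by
    funext p
    simp only [Function.comp_apply, Prod.map_fst, Prod.map_snd, id_eq]
    exact twKer_eq_tau372 r s F φ p.1 p.2
  rw [e]
  exact h2

end Fermat.Agent.LT.T5.H372
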